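import Mathlib

/-!
# Characteristic polynomials in short exact sequences (helper64, P-MW row 688)

Mathlib only.  `mw_charpoly_exact`: for finite-dimensional vector spaces with endomorphisms
`φ₁, φ₂, φ₃` and an equivariant short exact sequence `0 → V₁ → V₂ → V₃ → 0`,
`charpoly φ₂ = charpoly φ₁ * charpoly φ₃`.
-/

set_option autoImplicit false

open Module LinearMap

namespace Fermat.Agent.H64

section Exact

variable {K : Type*} [Field K] {V₁ V₂ V₃ : Type*}
  [AddCommGroup V₁] [Module K V₁] [FiniteDimensional K V₁]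
  [AddCommGroup V₂] [Module K V₂] [FiniteDimensional K V₂]
  [AddCommGroup V₃] [Module K V₃] [FiniteDimensional K V₃]

/-- charpoly of a block-triangular endomorphism of a product -/
theorem mw_charpoly_triangular (φ₁ : V₁ →ₗ[K] V₁) (φ₃ : V₃ →ₗ[K] V₃)
    (ψ : (V₁ × V₃) →ₗ[K] (V₁ × V₃))
    (h1 : ∀ a : V₁, ψ (a, 0) = (φ₁ a, 0)) (h2 : ∀ x : V₁ × V₃, (ψ x).2 = φ₃ x.2) :
    ψ.charpoly = φ₁.charpoly * φ₃.charpoly := by
  classical
  let b₁ := Module.Free.chooseBasis K V₁
  let b₃ := Module.Free.chooseBasis K V₃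
  let b := b₁.prod b₃
  have hM : toMatrix b b ψ = Matrix.fromBlocks (toMatrix b₁ b₁ φ₁)
      (Matrix.of fun i l => b₁.repr (ψ (0, b₃ l)).1 i) 0 (toMatrix b₃ b₃ φ₃) := by
    ext i j
    rcases i with i | k <;> rcases j with j | l
    · simp only [toMatrix_apply, Matrix.fromBlocks_apply₁₁, b, Basis.prod_repr_inl]
      have : (b₁.prod b₃) (Sum.inl j) = (b₁ j, 0) := by
        ext <;> simp
      rw [this, h1]
    · simp only [toMatrix_apply, Matrix.fromBlocks_apply₁₂, b, Basis.prod_repr_inl,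
        Matrix.of_apply]
      have : (b₁.prod b₃) (Sum.inr l) = (0, b₃ l) := by
        ext <;> simp
      rw [this]
    · simp only [toMatrix_apply, Matrix.fromBlocks_apply₂₁, b, Basis.prod_repr_inr,
        Matrix.zero_apply]
      have : (b₁.prod b₃) (Sum.inl j) = (b₁ j, 0) := by
        ext <;> simp
      rw [this, h1]
      simp
    · simp only [toMatrix_apply, Matrix.fromBlocks_apply₂₂, b, Basis.prod_repr_inr]
      have : (b₁.prod b₃) (Sum.inr l) = (0, b₃ l) := by
        ext <;> simp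
      rw [this, h2]
  rw [← charpoly_toMatrix ψ b, hM, Matrix.charpoly_fromBlocks_zero₂₁,
    charpoly_toMatrix, charpoly_toMatrix]

/-- **Characteristic polynomials are multiplicative in equivariant short exact sequences.** -/
theorem mw_charpoly_exact (φ₁ : V₁ →ₗ[K] V₁) (φ₂ : V₂ →ₗ[K] V₂) (φ₃ : V₃ →ₗ[K] V₃)
    (i : V₁ →ₗ[K] V₂) (p : V₂ →ₗ[K] V₃) (hi : Function.Injective i)
    (hp : Function.Surjective p) (hex : ∀ x : V₂, p x = 0 → ∃ a : V₁, i a = x)
    (hpi : ∀ a : V₁, p (i a) = 0)
    (hφi : ∀ a : V₁, i (φ₁ a) = φ₂ (i a)) (hφp : ∀ x : V₂, p (φ₂ x) = φ₃ (p x)) :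
    φ₂.charpoly = φ₁.charpoly * φ₃.charpoly := by
  classical
  obtain ⟨s, hs⟩ := p.exists_rightInverse_of_surjective (LinearMap.range_eq_top.mpr hp)
  have hs' : ∀ c : V₃, p (s c) = c := fun c => by
    have := congrArg (fun f => f c) hs
    simpa using this
  -- the equivalence `V₁ × V₃ ≃ V₂`
  let e₀ : (V₁ × V₃) →ₗ[K] V₂ := i.coprod s
  have he₀ : ∀ x : V₁ × V₃, e₀ x = i x.1 + s x.2 := fun x => by
    simp [e₀, LinearMap.coprod_apply]
  have hinj : Function.Injective e₀ := by
    rw [← LinearMap.ker_eq_bot, LinearMap.ker_eq_bot']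
    intro x hx
    rw [he₀] at hx
    have h3 : x.2 = 0 := by
      have := congrArg p hx
      rw [map_add, hpi, hs', zero_add, map_zero] at this
      exact this
    have h1 : x.1 = 0 := by
      rw [h3, map_zero, add_zero] at hx
      exact hi (by rw [hx, map_zero])
    exact Prod.ext h1 h3
  have hsurj : Function.Surjective e₀ := by
    intro y
    obtain ⟨a, ha⟩ := hex (y - s (p y)) (by rw [map_sub, hs', sub_self])
    refine ⟨(a, p y), ?_⟩
    rw [he₀, ha]
    simp
  let e : (V₁ × V₃) ≃ₗ[K] V₂ := LinearEquiv.ofBijective e₀ ⟨hinj, hsurj⟩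
  have heapply : ∀ x, e x = i x.1 + s x.2 := he₀
  rw [← LinearEquiv.charpoly_conj e.symm φ₂]
  apply mw_charpoly_triangular
  · intro a
    rw [LinearEquiv.conj_apply_apply, LinearEquiv.symm_symm, LinearEquiv.symm_apply_eq,
      heapply, heapply]
    simp only [map_zero, add_zero]
    exact (hφi a).symm
  · intro x
    rw [LinearEquiv.conj_apply_apply, LinearEquiv.symm_symm]
    have key : ∀ y : V₂, (e.symm y).2 = p y := by
      intro y
      obtain ⟨z, rfl⟩ := e.surjective y
      rw [LinearEquiv.symm_apply_apply, heapply, map_add, hpi, hs', zero_add]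
    rw [key, hφp, heapply, map_add, hpi, hs', zero_add]

end Exact

end Fermat.Agent.H64
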