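import Fermat.Agent.H92.MW.BasicInterfaces
import Fermat.Agent.H64.MW.CharpolyExact

/-!
# P-MW row 688 (MW-HADD): additivity of the naive height (helper64)

* `mw_finite_quot` : `R ⧸ I` is finite-dimensional over `ℚ` for `I ≠ ⊥` (from `bar_rr`).
* `mw_tCharpoly_mul` : `tCharpoly (I * J) = tCharpoly I * tCharpoly J`.
* `mw_deg_mul` : `deg (I * J) = deg I + deg J`.
* `hAdd : GaussGelfondStatement → 𝒞.HAddStatement`.
-/

set_option autoImplicit false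

noncomputable section

open Module TensorProduct

namespace Fermat.Agent.H64

open Fermat.Agent.H92.MW

variable {R : Type} [CommRing R] [Algebra ℚ R] [IsDedekindDomain R]

/-- descent of finiteness along a field extension -/
theorem mw_finite_of_baseChange (K L M : Type*) [Field K] [Field L] [Algebra K L]
    [AddCommGroup M] [Module K M] (h : Module.Finite L (L ⊗[K] M)) : Module.Finite K M := by
  rw [← Module.rank_lt_aleph0_iff] at h ⊢
  rw [Module.rank_baseChange] at h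
  exact Cardinal.lift_lt_aleph0.mp h

/-- `R ⧸ I` is finite-dimensional over `ℚ` for a nonzero ideal `I`. -/
theorem mw_finite_quot (𝒞 : MWDatum R) (I : Ideal R) (hI : I ≠ ⊥) :
    Module.Finite ℚ (R ⧸ I) := by
  classical
  have hinj : Function.Injective
      (Algebra.TensorProduct.includeRight : R →ₐ[ℚ] QQbar ⊗[ℚ] R) :=
    Algebra.TensorProduct.includeRight_injective (algebraMap ℚ QQbar).injective
  set I' : Ideal (QQbar ⊗[ℚ] R) :=
    I.map (Algebra.TensorProduct.includeRight : R →ₐ[ℚ] QQbar ⊗[ℚ] R) with hI'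
  have hI'ne : I' ≠ ⊥ := by
    obtain ⟨a, haI, ha0⟩ := Submodule.exists_mem_ne_zero_of_ne_bot hI
    intro hbot
    have hmem : (Algebra.TensorProduct.includeRight : R →ₐ[ℚ] QQbar ⊗[ℚ] R) a ∈ I' :=
      Ideal.mem_map_of_mem _ haI
    rw [hbot, Ideal.mem_bot] at hmem
    exact ha0 (hinj (by rw [hmem, map_zero]))
  have hfin : Module.Finite QQbar ((QQbar ⊗[ℚ] R) ⧸ I') := (𝒞.bar_rr I' hI'ne).1
  -- the surjection onto `ℚ̄ ⊗ (R ⧸ I)`
  let g : QQbar ⊗[ℚ] R →ₐ[QQbar] QQbar ⊗[ℚ] (R ⧸ I) :=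
    Algebra.TensorProduct.map (AlgHom.id QQbar QQbar) (Ideal.Quotient.mkₐ ℚ I)
  have hg : Function.Surjective g :=
    Algebra.TensorProduct.map_surjective _ _ Function.surjective_id
      (Ideal.Quotient.mkₐ_surjective ℚ I)
  have hker : ∀ b ∈ I', g b = 0 := by
    intro b hb
    have hle : I' ≤ RingHom.ker g.toRingHom := by
      rw [hI', Ideal.map_le_iff_le_comap]
      intro a ha
      rw [Ideal.mem_comap, RingHom.mem_ker]
      change g (1 ⊗ₜ[ℚ] a) = 0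
      rw [Algebra.TensorProduct.map_tmul]
      have : (Ideal.Quotient.mkₐ ℚ I) a = 0 := Ideal.Quotient.eq_zero_iff_mem.mpr ha
      rw [this, TensorProduct.tmul_zero]
    exact hle hb
  let g' : (QQbar ⊗[ℚ] R) ⧸ I' →ₐ[QQbar] QQbar ⊗[ℚ] (R ⧸ I) := Ideal.Quotient.liftₐ I' g hker
  have hg' : Function.Surjective g' := by
    intro y
    obtain ⟨b, rfl⟩ := hg y
    exact ⟨Ideal.Quotient.mk I' b, Ideal.Quotient.lift_mk I' _ hker⟩
  have hfin2 : Module.Finite QQbar (QQbar ⊗[ℚ] (R ⧸ I)) :=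
    Module.Finite.of_surjective g'.toLinearMap hg'
  exact mw_finite_of_baseChange ℚ QQbar (R ⧸ I) hfin2


theorem mw_tCharpoly_eq (𝒞 : MWDatum R) (I : Ideal R) [h : Module.Finite ℚ (R ⧸ I)] :
    𝒞.tCharpoly I = (LinearMap.mulLeft ℚ (Ideal.Quotient.mk I 𝒞.t)).charpoly := by
  unfold MWDatum.tCharpoly
  rw [dif_pos h]

/-- **multiplicativity of `tCharpoly`** -/
theorem mw_tCharpoly_mul (𝒞 : MWDatum R) (I J : Ideal R) (hI : I ≠ ⊥) (hJ : J ≠ ⊥) :
    𝒞.tCharpoly (I * J) = 𝒞.tCharpoly I * 𝒞.tCharpoly J := by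
  classical
  have hIJ : I * J ≠ ⊥ := mul_ne_zero hI hJ
  have := mw_finite_quot 𝒞 I hI
  have := mw_finite_quot 𝒞 J hJ
  have := mw_finite_quot 𝒞 (I * J) hIJ
  rw [mw_tCharpoly_eq 𝒞 I, mw_tCharpoly_eq 𝒞 J, mw_tCharpoly_eq 𝒞 (I * J)]
  obtain ⟨a, ha⟩ := IsDedekindDomain.exists_sup_span_eq (Ideal.mul_le_left : I * J ≤ I) hIJ
  have haI : a ∈ I := by
    rw [← ha]
    exact Ideal.mem_sup_right (Ideal.mem_span_singleton_self a)
  -- `r * a ∈ I * J ↔ r ∈ J`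
  have hcancel : ∀ r : R, r * a ∈ I * J → r ∈ J := by
    intro r hr
    have h1 : I * Ideal.span {r} ≤ I * J := by
      rw [Ideal.mul_le]
      intro x hx y hy
      obtain ⟨d, rfl⟩ := Ideal.mem_span_singleton'.mp hy
      rw [← ha] at hx
      obtain ⟨u, hu, v, hv, rfl⟩ := Submodule.mem_sup.mp hx
      obtain ⟨c, rfl⟩ := Ideal.mem_span_singleton'.mp hv
      have e1 : (u + c * a) * (d * r) = u * (d * r) + (c * d) * (r * a) := by ring
      rw [e1]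
      exact (I * J).add_mem ((I * J).mul_mem_right _ hu) ((I * J).mul_mem_left _ hr)
    have h2 : I * J ∣ I * Ideal.span {r} := Ideal.dvd_iff_le.mpr h1
    have h3 : J ∣ Ideal.span {r} := (mul_dvd_mul_iff_left hI).mp h2
    exact (Ideal.span_singleton_le_iff_mem J).mp (Ideal.dvd_iff_le.mp h3)
  -- the maps
  let i₀ : R ⧸ J →ₗ[R] R ⧸ (I * J) :=
    Submodule.liftQ J ((Submodule.mkQ (I * J)).comp (LinearMap.mulRight R a)) (by
      intro r hr
      rw [LinearMap.mem_ker, LinearMap.comp_apply, LinearMap.mulRight_apply,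
        Submodule.mkQ_apply, Submodule.Quotient.mk_eq_zero]
      rw [mul_comm r a]
      exact Ideal.mul_mem_mul haI hr)
  have hi₀ : ∀ r : R, i₀ (Ideal.Quotient.mk J r) = Ideal.Quotient.mk (I * J) (r * a) :=
    fun r => rfl
  let i : R ⧸ J →ₗ[ℚ] R ⧸ (I * J) := i₀.restrictScalars ℚ
  let p : R ⧸ (I * J) →ₗ[ℚ] R ⧸ I :=
    (Ideal.Quotient.factorₐ ℚ (Ideal.mul_le_left : I * J ≤ I)).toLinearMap
  have hp₀ : ∀ r : R, p (Ideal.Quotient.mk (I * J) r) = Ideal.Quotient.mk I r := fun r => rfl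
  refine (mw_charpoly_exact (LinearMap.mulLeft ℚ (Ideal.Quotient.mk J 𝒞.t))
    (LinearMap.mulLeft ℚ (Ideal.Quotient.mk (I * J) 𝒞.t))
    (LinearMap.mulLeft ℚ (Ideal.Quotient.mk I 𝒞.t)) i p ?_ ?_ ?_ ?_ ?_ ?_).trans (mul_comm _ _)
  · -- injective
    rw [← LinearMap.ker_eq_bot, LinearMap.ker_eq_bot']
    intro x hx
    obtain ⟨r, rfl⟩ := Ideal.Quotient.mk_surjective x
    change i₀ (Ideal.Quotient.mk J r) = 0 at hx
    rw [hi₀, Ideal.Quotient.eq_zero_iff_mem] at hx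
    exact Ideal.Quotient.eq_zero_iff_mem.mpr (hcancel r hx)
  · -- surjective
    intro y
    obtain ⟨r, rfl⟩ := Ideal.Quotient.mk_surjective y
    exact ⟨Ideal.Quotient.mk (I * J) r, hp₀ r⟩
  · -- exactness
    intro x hx
    obtain ⟨r, rfl⟩ := Ideal.Quotient.mk_surjective x
    rw [hp₀, Ideal.Quotient.eq_zero_iff_mem, ← ha] at hx
    obtain ⟨u, hu, v, hv, rfl⟩ := Submodule.mem_sup.mp hx
    obtain ⟨c, rfl⟩ := Ideal.mem_span_singleton'.mp hv
    refine ⟨Ideal.Quotient.mk J c, ?_⟩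
    change i₀ (Ideal.Quotient.mk J c) = _
    rw [hi₀, map_add, Ideal.Quotient.eq_zero_iff_mem.mpr hu, zero_add]
  · intro x
    obtain ⟨r, rfl⟩ := Ideal.Quotient.mk_surjective x
    change p (i₀ (Ideal.Quotient.mk J r)) = 0
    rw [hi₀, hp₀, Ideal.Quotient.eq_zero_iff_mem]
    exact I.mul_mem_left r haI
  · intro x
    obtain ⟨r, rfl⟩ := Ideal.Quotient.mk_surjective x
    change i₀ (Ideal.Quotient.mk J 𝒞.t * Ideal.Quotient.mk J r) =
      Ideal.Quotient.mk (I * J) 𝒞.t * i₀ (Ideal.Quotient.mk J r)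
    rw [← map_mul, hi₀, hi₀, ← map_mul, mul_assoc]
  · intro x
    obtain ⟨r, rfl⟩ := Ideal.Quotient.mk_surjective x
    change p (Ideal.Quotient.mk (I * J) 𝒞.t * Ideal.Quotient.mk (I * J) r) =
      Ideal.Quotient.mk I 𝒞.t * p (Ideal.Quotient.mk (I * J) r)
    rw [← map_mul, hp₀, hp₀, map_mul]

theorem mw_tCharpoly_monic (𝒞 : MWDatum R) (I : Ideal R) : (𝒞.tCharpoly I).Monic := by
  unfold MWDatum.tCharpoly
  split_ifs with h
  · exact LinearMap.charpoly_monic _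
  · exact Polynomial.monic_one

theorem mw_tCharpoly_natDegree (𝒞 : MWDatum R) (I : Ideal R) (hI : I ≠ ⊥) :
    (𝒞.tCharpoly I).natDegree = 𝒞.deg I := by
  have := mw_finite_quot 𝒞 I hI
  rw [mw_tCharpoly_eq 𝒞 I, LinearMap.charpoly_natDegree]
  rfl

/-- **additivity of the degree** -/
theorem mw_deg_mul (𝒞 : MWDatum R) (I J : Ideal R) (hI : I ≠ ⊥) (hJ : J ≠ ⊥) :
    𝒞.deg (I * J) = 𝒞.deg I + 𝒞.deg J := by
  rw [← mw_tCharpoly_natDegree 𝒞 (I * J) (mul_ne_zero hI hJ), mw_tCharpoly_mul 𝒞 I J hI hJ,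
    Polynomial.Monic.natDegree_mul (mw_tCharpoly_monic 𝒞 I) (mw_tCharpoly_monic 𝒞 J),
    mw_tCharpoly_natDegree 𝒞 I hI, mw_tCharpoly_natDegree 𝒞 J hJ]

/-- **MW-HADD** (row 688): additivity of the naive height, from Gauss-Gelfond. -/
theorem hAdd (𝒞 : MWDatum R) (hGG : GaussGelfondStatement) : 𝒞.HAddStatement := by
  intro d
  obtain ⟨C, hC⟩ := hGG d
  refine ⟨C / 𝒞.e, fun I J hI hJ hdI hdJ => ?_⟩
  have hmul := mw_tCharpoly_mul 𝒞 I J hI hJ
  have hf : 𝒞.tCharpoly I ≠ 0 := (mw_tCharpoly_monic 𝒞 I).ne_zero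
  have hg : 𝒞.tCharpoly J ≠ 0 := (mw_tCharpoly_monic 𝒞 J).ne_zero
  have key := hC (𝒞.tCharpoly I) (𝒞.tCharpoly J) hf hg
    (by rw [mw_tCharpoly_natDegree 𝒞 I hI]; exact hdI)
    (by rw [mw_tCharpoly_natDegree 𝒞 J hJ]; exact hdJ)
  have he : (0 : ℝ) < (𝒞.e : ℝ) := by exact_mod_cast 𝒞.e_pos
  unfold MWDatum.hInf MWDatum.hT
  rw [hmul, ← sub_div, ← sub_div, abs_div, abs_of_pos he]
  exact div_le_div_of_nonneg_right key he.le

/-- the three unconditional clauses (1), (5), (6) of `BasicStatement` -/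
theorem mw_basic_156 (𝒞 : MWDatum R) :
    (∀ I : Ideal R, I ≠ ⊥ → Module.Finite ℚ (R ⧸ I)) ∧
    (∀ I J : Ideal R, I ≠ ⊥ → J ≠ ⊥ → 𝒞.deg (I * J) = 𝒞.deg I + 𝒞.deg J) ∧
    (∀ I J : Ideal R, I ≠ ⊥ → J ≠ ⊥ → 𝒞.tCharpoly (I * J) = 𝒞.tCharpoly I * 𝒞.tCharpoly J) :=
  ⟨mw_finite_quot 𝒞, mw_deg_mul 𝒞, mw_tCharpoly_mul 𝒞⟩

end Fermat.Agent.H64
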